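import Fermat.Agent.Wiring.FreyModel
import Fermat.Agent.Ribet.General.Attached
import Fermat.Agent.ECRed.ModelChange
import Fermat.Prelude.Def_FreyPackage_IsConductorLevel

/-!
# Wiring: residual modularity of the Frey package and of its integral model

`FreyPackage.ModularRepOfLevel` quantifies over an integral model of the Frey curve, whereas the
general level lowering statements speak about `WeierstrassCurve.IsResiduallyModularOfLevel` of a
fixed integral model.  For an irreducible representation the two agree.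
-/

set_option autoImplicit false
set_option maxHeartbeats 400000
set_option linter.style.haveILetI false

noncomputable section

open WeierstrassCurve WeierstrassCurve.Affine.Point

namespace Fermat.Agent.Wiring

variable (P : FreyPackage)

/-- Irreducibility of the Frey representation, for the integral model. -/
theorem modRepIsIrreducible_freyCurveInt
    (hirr : GaloisRepIsIrreducible (K := AlgebraicClosure ℚ) ℚ P.freyCurve P.p) :
    P.freyCurveInt.ModRepIsIrreducible P.p := by
  show GaloisRepIsIrreducible (K := AlgebraicClosure ℚ) ℚ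
    (P.freyCurveInt.map (Int.castRingHom ℚ)) P.p
  rw [freyCurveInt_map]
  exact hirr

/-- Residual modularity of the integral model gives it for the Frey package. -/
theorem modularRepOfLevel_of_freyCurveInt {N : ℕ}
    (h : P.freyCurveInt.IsResiduallyModularOfLevel P.p N) : P.ModularRepOfLevel N := by
  obtain ⟨f, 𝔪, hf, hmax, hp, hcong⟩ := h
  exact ⟨f, P.freyCurveInt, 𝔪, hf, freyCurveInt_isIntegralModelOf P, hmax, hp, hcong⟩

/-- A modular irreducible Frey representation is residually modular for the integral model. -/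
theorem freyCurveInt_isResiduallyModularOfLevel
    (hirr : GaloisRepIsIrreducible (K := AlgebraicClosure ℚ) ℚ P.freyCurve P.p) {N : ℕ}
    (hN : 0 < N) (h : P.ModularRepOfLevel N) :
    P.freyCurveInt.IsResiduallyModularOfLevel P.p N := by
  classical
  haveI : Fact P.p.Prime := ⟨P.pp⟩
  haveI : NeZero N := ⟨hN.ne'⟩
  obtain ⟨f, W, 𝔪, hf, ⟨C, hC⟩, hmax, hp, hcong⟩ := h
  have hΔ := freyCurveInt_Δ_ne_zero P
  have hmap := freyCurveInt_map P
  have hWΔ : W.Δ ≠ 0 := fun h0 => by
    have h2 : (W.map (Int.castRingHom ℚ)).Δ = 0 := by rw [map_Δ, h0, _root_.map_zero]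
    rw [← hC, ← hmap, variableChange_Δ, map_Δ, eq_intCast] at h2
    simp [hΔ] at h2
  refine Ribet.General.isResiduallyModularOfLevel_of_eigenform hΔ (by have := P.hp5; omega)
    (modRepIsIrreducible_freyCurveInt P hirr) hf 𝔪 hmax hp W.Δ.natAbs.primeFactors
    fun ℓ hℓ hℓS hgood hℓN hℓp => ?_
  have hgW : W.IsGoodPrimeFor ℓ := fun hd => hℓS (Nat.mem_primeFactors.2
    ⟨hℓ, Int.natCast_dvd.mp hd, Int.natAbs_ne_zero.mpr hWΔ⟩)
  rw [ECRed.apOfModel_eq_of_variableChange C (by rw [hmap, hC]) hℓ hgood hgW]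
  exact hcong ℓ hℓ hgW hℓN hℓp

/-- The two notions of residual modularity agree. -/
theorem modularRepOfLevel_iff_freyCurveInt
    (hirr : GaloisRepIsIrreducible (K := AlgebraicClosure ℚ) ℚ P.freyCurve P.p) {N : ℕ}
    (hN : 0 < N) :
    P.ModularRepOfLevel N ↔ P.freyCurveInt.IsResiduallyModularOfLevel P.p N :=
  ⟨freyCurveInt_isResiduallyModularOfLevel P hirr hN, modularRepOfLevel_of_freyCurveInt P⟩

/-- Removing `p` from the level first reduces the removal of `q` to levels prime to `p`. -/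
theorem exists_lower_of_not_dvd {N q : ℕ}
    (hirr : GaloisRepIsIrreducible (K := AlgebraicClosure ℚ) ℚ P.freyCurve P.p)
    (h44 : ∀ {M : ℕ}, P.IsConductorLevel M → P.p ∣ M → P.ModularRepOfLevel M →
      ∃ M' : ℕ, M' ∣ M ∧ ¬ P.p ∣ M' ∧ P.ModularRepOfLevel M')
    (hstep : ∀ {M : ℕ}, M ∣ N → P.IsConductorLevel M → ¬ P.p ∣ M → q ∣ M →
      P.freyCurveInt.IsResiduallyModularOfLevel P.p M →
      ∃ M' : ℕ, M' ∣ M ∧ ¬ q ∣ M' ∧ P.freyCurveInt.IsResiduallyModularOfLevel P.p M')
    (hN : P.IsConductorLevel N) (hmod : P.ModularRepOfLevel N) :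
    ∃ M : ℕ, M ∣ N ∧ ¬ q ∣ M ∧ P.ModularRepOfLevel M := by
  obtain ⟨M, hMN, hpM, hM⟩ : ∃ M : ℕ, M ∣ N ∧ ¬ P.p ∣ M ∧ P.ModularRepOfLevel M := by
    by_cases hp : P.p ∣ N
    · exact h44 hN hp hmod
    · exact ⟨N, dvd_rfl, hp, hmod⟩
  have hMpos : 0 < M := Nat.pos_of_dvd_of_pos hMN hN.pos
  by_cases hq : q ∣ M
  · obtain ⟨M', hM', hqM', h'⟩ := hstep hMN (hN.of_dvd hMN hMpos) hpM hq
      (freyCurveInt_isResiduallyModularOfLevel P hirr hMpos hM)
    exact ⟨M', hM'.trans hMN, hqM', modularRepOfLevel_of_freyCurveInt P h'⟩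
  · exact ⟨M, hMN, hq, hM⟩

end Fermat.Agent.Wiring

end
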