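import Fermat.Prelude.Def_FLTPrelim_FreyPackage
import Fermat.Prelude.Def_FLTPrelim_Modularity

/-!
# The integral model of the Frey curve: exact divisions, invariants, semistability
-/

set_option autoImplicit false

namespace Fermat.Agent.Wiring

variable (P : FreyPackage)

theorem frey_four_dvd : (4 : ℤ) ∣ P.b ^ P.p - 1 - P.a ^ P.p := by
  have h1 : (4 : ℤ) ∣ P.b ^ P.p := by
    have h2 : (2 : ℤ) ∣ P.b := (ZMod.intCast_zmod_eq_zero_iff_dvd P.b 2).1 P.hb2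
    have h3 : (2 : ℤ) ^ 2 ∣ P.b ^ P.p :=
      (pow_dvd_pow 2 (by have := P.hp5; omega)).trans (pow_dvd_pow_of_dvd h2 _)
    simpa using h3
  have h2 : (4 : ℤ) ∣ 1 + P.a ^ P.p := by
    have : ((1 + P.a ^ P.p : ℤ) : ZMod 4) = 0 := by
      push_cast
      rw [P.ha4, show (3 : ZMod 4) = -1 from rfl, P.hp_odd.neg_one_pow]
      simp
    exact (ZMod.intCast_zmod_eq_zero_iff_dvd _ 4).1 this
  have : P.b ^ P.p - 1 - P.a ^ P.p = P.b ^ P.p - (1 + P.a ^ P.p) := by ring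
  exact this ▸ dvd_sub h1 h2

theorem frey_sixteen_dvd_pow : (16 : ℤ) ∣ P.b ^ P.p := by
  have h2 : (2 : ℤ) ∣ P.b := (ZMod.intCast_zmod_eq_zero_iff_dvd P.b 2).1 P.hb2
  have h3 : (2 : ℤ) ^ 4 ∣ P.b ^ P.p :=
    (pow_dvd_pow 2 (by have := P.hp5; omega)).trans (pow_dvd_pow_of_dvd h2 _)
  simpa using h3

theorem four_mul_freyCurveInt_a₂ :
    4 * P.freyCurveInt.a₂ = P.b ^ P.p - 1 - P.a ^ P.p :=
  Int.mul_ediv_cancel' (frey_four_dvd P)

theorem sixteen_mul_freyCurveInt_a₄ :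
    16 * P.freyCurveInt.a₄ = -(P.a ^ P.p) * (P.b ^ P.p) :=
  Int.mul_ediv_cancel' (dvd_mul_of_dvd_right (frey_sixteen_dvd_pow P) _)

theorem freyCurveInt_map : P.freyCurveInt.map (Int.castRingHom ℚ) = P.freyCurve := by
  have h2 := congrArg (Int.cast : ℤ → ℚ) (four_mul_freyCurveInt_a₂ P)
  have h4 := congrArg (Int.cast : ℤ → ℚ) (sixteen_mul_freyCurveInt_a₄ P)
  push_cast at h2 h4
  ext
  · exact Int.cast_one
  · change ((P.freyCurveInt.a₂ : ℤ) : ℚ) = ((P.b : ℚ) ^ P.p - 1 - (P.a : ℚ) ^ P.p) / 4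
    linear_combination h2 / 4
  · exact Int.cast_zero
  · change ((P.freyCurveInt.a₄ : ℤ) : ℚ) = -((P.a : ℚ) ^ P.p) * ((P.b : ℚ) ^ P.p) / 16
    linear_combination h4 / 16
  · exact Int.cast_zero

theorem freyCurveInt_isIntegralModelOf : P.freyCurveInt.IsIntegralModelOf P.freyCurve :=
  ⟨1, by rw [one_smul, freyCurveInt_map]⟩

theorem freyCurveInt_c₄ :
    P.freyCurveInt.c₄ = (P.a ^ P.p) ^ 2 + P.a ^ P.p * P.b ^ P.p + (P.b ^ P.p) ^ 2 := by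
  have h2 := four_mul_freyCurveInt_a₂ P
  have h4 := sixteen_mul_freyCurveInt_a₄ P
  have ha1 : P.freyCurveInt.a₁ = 1 := rfl
  have ha3 : P.freyCurveInt.a₃ = 0 := rfl
  simp only [WeierstrassCurve.c₄, WeierstrassCurve.b₂, WeierstrassCurve.b₄, ha1, ha3]
  linear_combination
    (4 * P.freyCurveInt.a₂ + 2 + (P.b ^ P.p - 1 - P.a ^ P.p)) * h2 - 3 * h4

theorem freyCurveInt_Δ :
    256 * P.freyCurveInt.Δ = (P.a * P.b * P.c) ^ (2 * P.p) := by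
  have h2 := four_mul_freyCurveInt_a₂ P
  have h4 := sixteen_mul_freyCurveInt_a₄ P
  have ha1 : P.freyCurveInt.a₁ = 1 := rfl
  have ha3 : P.freyCurveInt.a₃ = 0 := rfl
  have ha6 : P.freyCurveInt.a₆ = 0 := rfl
  have hc : (P.a * P.b * P.c) ^ (2 * P.p)
      = (P.a ^ P.p * P.b ^ P.p * (P.a ^ P.p + P.b ^ P.p)) ^ 2 := by
    rw [P.hFLT, ← mul_pow, ← mul_pow, ← pow_mul, mul_comm P.p 2]
  rw [hc]
  simp only [WeierstrassCurve.Δ, WeierstrassCurve.b₂, WeierstrassCurve.b₄, WeierstrassCurve.b₆,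
    WeierstrassCurve.b₈, ha1, ha3, ha6]
  have e4 : (16 * P.freyCurveInt.a₄) ^ 2 = (P.a ^ P.p * P.b ^ P.p) ^ 2 := by
    rw [h4]; ring
  linear_combination
    ((1 + 4 * P.freyCurveInt.a₂) + (P.b ^ P.p - P.a ^ P.p)) *
        (16 * P.freyCurveInt.a₄) ^ 2 * h2
      - 4 * (16 * P.freyCurveInt.a₄) ^ 2 * h4
      + ((P.b ^ P.p - P.a ^ P.p) ^ 2 + 4 * (P.a ^ P.p * P.b ^ P.p)) * e4

theorem freyCurveInt_Δ_ne_zero : P.freyCurveInt.Δ ≠ 0 := by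
  intro h
  have := freyCurveInt_Δ P
  rw [h, mul_zero] at this
  exact P.habc0 (eq_zero_of_pow_eq_zero this.symm)

theorem dvd_abc_of_dvd_freyCurveInt_Δ {q : ℕ} (hq : q.Prime)
    (h : (q : ℤ) ∣ P.freyCurveInt.Δ) : (q : ℤ) ∣ P.a * P.b * P.c :=
  (Nat.prime_iff_prime_int.1 hq).dvd_of_dvd_pow
    ((freyCurveInt_Δ P) ▸ h.mul_left 256)

theorem freyCurveInt_isSemistableModel : P.freyCurveInt.IsSemistableModel := by
  intro q hq hΔ hc4
  have hq' : Prime (q : ℤ) := Nat.prime_iff_prime_int.1 hq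
  rw [freyCurveInt_c₄] at hc4
  have habc := dvd_abc_of_dvd_freyCurveInt_Δ P hq hΔ
  have hab : ¬ ((q : ℤ) ∣ P.a ∧ (q : ℤ) ∣ P.b) := by
    rintro ⟨ha, hb⟩
    have := dvd_gcd ha hb
    rw [P.hgcdab] at this
    exact hq'.not_dvd_one this
  rcases hq'.dvd_or_dvd habc with h | h
  · rcases hq'.dvd_or_dvd h with ha | hb
    · have hA : (q : ℤ) ∣ P.a ^ P.p := dvd_pow ha P.hp0
      have : (q : ℤ) ∣ (P.b ^ P.p) ^ 2 := by
        have h' := dvd_sub hc4 (hA.mul_right (P.a ^ P.p + P.b ^ P.p))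
        ring_nf at h' ⊢
        exact h'
      exact hab ⟨ha, hq'.dvd_of_dvd_pow (hq'.dvd_of_dvd_pow this)⟩
    · have hB : (q : ℤ) ∣ P.b ^ P.p := dvd_pow hb P.hp0
      have : (q : ℤ) ∣ (P.a ^ P.p) ^ 2 := by
        have h' := dvd_sub hc4 (hB.mul_right (P.a ^ P.p + P.b ^ P.p))
        ring_nf at h' ⊢
        exact h'
      exact hab ⟨hq'.dvd_of_dvd_pow (hq'.dvd_of_dvd_pow this), hb⟩
  · have hC : (q : ℤ) ∣ P.a ^ P.p + P.b ^ P.p := P.hFLT ▸ dvd_pow h P.hp0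
    have : (q : ℤ) ∣ (P.a ^ P.p) ^ 2 := by
      have h' := dvd_sub hc4 (hC.mul_right (P.b ^ P.p))
      ring_nf at h' ⊢
      exact h'
    have ha : (q : ℤ) ∣ P.a := hq'.dvd_of_dvd_pow (hq'.dvd_of_dvd_pow this)
    have hb : (q : ℤ) ∣ P.b := by
      refine hq'.dvd_of_dvd_pow (n := P.p) ?_
      have h' := dvd_sub hC (dvd_pow ha P.hp0)
      rwa [add_sub_cancel_left] at h'
    exact hab ⟨ha, hb⟩

end Fermat.Agent.Wiring
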