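import Fermat.Prelude.Def_FLTPrelim_ModularRep
import Fermat.Prelude.Def_FreyPackage_IsConductorLevel
import Fermat.Prelude.Def_WeierstrassCurve_Mlc1RowStatement
import Fermat.Agent.Wiring.FreyModel

/-!
# Wiring: modularity of semistable models, the Frey curve, and its conductor level
-/

set_option autoImplicit false

noncomputable section

namespace Fermat.Agent.Wiring

/-- A maximal ideal over a prime exists, so a modular model is residually modular mod `p`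
against every curve with congruent traces. -/
theorem isResiduallyModularOfLevel_of_congr {W W' : WeierstrassCurve ℤ} {p N : ℕ} (hp : p.Prime)
    (hmod : W'.IsModularModelOfLevel N)
    (hgood : ∀ ℓ : ℕ, ℓ.Prime → ¬ ℓ ∣ N → W'.IsGoodPrimeFor ℓ)
    (hcong : ∀ ℓ : ℕ, ℓ.Prime → W.IsGoodPrimeFor ℓ → W'.IsGoodPrimeFor ℓ → ℓ ≠ p →
      (p : ℤ) ∣ (W'.apOfModel ℓ - W.apOfModel ℓ)) :
    W.IsResiduallyModularOfLevel p N := by
  obtain ⟨f, hf, hap⟩ := hmod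
  obtain ⟨𝔪, hmax, hpm⟩ := FLTPrelim.exists_maximalIdeal_natCast_prime_mem hp
  refine ⟨f, 𝔪, hf, hmax, hpm, fun ℓ hℓ hWℓ hℓN hℓp => ?_⟩
  refine ⟨((W'.apOfModel ℓ : ℤ) : integralClosure ℤ ℂ), ?_, ?_⟩
  · rw [hap ℓ hℓ (hgood ℓ hℓ hℓN) hℓN]
    simp
  · obtain ⟨k, hk⟩ := hcong ℓ hℓ hWℓ (hgood ℓ hℓ hℓN) hℓp
    rw [← Int.cast_sub, hk]
    push_cast
    exact 𝔪.mul_mem_right _ hpm

/-- Modularity of exact conductor level for all semistable models, from residual modularity at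
three, the disjunction mod 3 or mod 5, the switch, and the lifting theorem at three and five. -/
theorem exactConductorLevel_of_inputs
    (h3res : ∀ W : WeierstrassCurve ℤ, W.Δ ≠ 0 → W.IsSemistableModel → W.ModRepIsIrreducible 3 →
      ∃ M₀ : ℕ, 0 < M₀ ∧ W.IsResiduallyModularOfLevel 3 M₀ ∧ ¬ 3 ^ 2 ∣ M₀ ∧
        ∀ q : ℕ, q.Prime → q ≠ 3 → ¬ q ^ 3 ∣ M₀)
    (hor : ∀ W : WeierstrassCurve ℤ, W.Δ ≠ 0 → W.IsSemistableModel →
      W.ModRepIsIrreducible 3 ∨ W.ModRepIsIrreducible 5)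
    (hswitch : ∀ W : WeierstrassCurve ℤ, W.Δ ≠ 0 → W.IsSemistableModel →
      W.ModRepIsIrreducible 5 →
      ∃ W' : WeierstrassCurve ℤ, W'.Δ ≠ 0 ∧ W'.IsSemistableModel ∧ W'.ModRepIsIrreducible 3 ∧
        ∀ ℓ : ℕ, ℓ.Prime → W.IsGoodPrimeFor ℓ → W'.IsGoodPrimeFor ℓ → ℓ ≠ 5 →
          (5 : ℤ) ∣ (W'.apOfModel ℓ - W.apOfModel ℓ))
    (hlift : ∀ (p : ℕ), p = 3 ∨ p = 5 → ∀ W : WeierstrassCurve ℤ, W.Δ ≠ 0 →
      W.IsSemistableModel → W.ModRepIsIrreducible p →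
      ∀ (M₀ : ℕ) [NeZero M₀], W.IsResiduallyModularOfLevel p M₀ → ¬ p ^ 2 ∣ M₀ →
      (∀ q : ℕ, q.Prime → q ≠ p → ¬ q ^ 3 ∣ M₀) →
      Mlc1IsModularModelOfExactConductorLevel W)
    (W : WeierstrassCurve ℤ) (hΔ : W.Δ ≠ 0) (hW : W.IsSemistableModel) :
    Mlc1IsModularModelOfExactConductorLevel W := by
  have at3 : ∀ W : WeierstrassCurve ℤ, W.Δ ≠ 0 → W.IsSemistableModel →
      W.ModRepIsIrreducible 3 → Mlc1IsModularModelOfExactConductorLevel W := by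
    intro W hΔ hW h3
    obtain ⟨M₀, hpos, hres, h9, hcube⟩ := h3res W hΔ hW h3
    have : NeZero M₀ := ⟨hpos.ne'⟩
    exact hlift 3 (Or.inl rfl) W hΔ hW h3 M₀ hres h9 hcube
  rcases hor W hΔ hW with h3 | h5
  · exact at3 W hΔ hW h3
  obtain ⟨W', hΔ', hW', h3', hcong⟩ := hswitch W hΔ hW h5
  obtain ⟨N, hN, hsq, hsupp, hmod⟩ := at3 W' hΔ' hW' h3'
  have : NeZero N := ⟨hN.ne'⟩
  have hres : W.IsResiduallyModularOfLevel 5 N :=
    isResiduallyModularOfLevel_of_congr (by norm_num) hmod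
      (fun ℓ hℓ hℓN hd => hℓN ((hsupp ℓ hℓ).2 hd)) hcong
  have hno : ∀ q : ℕ, q.Prime → ¬ q ^ 2 ∣ N := fun q hq h =>
    Nat.squarefree_iff_prime_squarefree.mp hsq q hq (by rwa [← pow_two])
  exact hlift 5 (Or.inr rfl) W hΔ hW h5 N hres (hno 5 (by norm_num))
    (fun q hq _ h => hno q hq ((pow_dvd_pow q (by norm_num)).trans h))

theorem isModular_map_of_exact (W : WeierstrassCurve ℤ)
    (h : Mlc1IsModularModelOfExactConductorLevel W) :
    (W.map (Int.castRingHom ℚ)).IsModular := by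
  obtain ⟨N, hN, -, -, hmod⟩ := h
  exact ⟨W, ⟨1, one_smul _ _⟩, N, hN, hmod⟩

theorem freyCurve_isModular_of_isModular_map (P : FreyPackage)
    (h : (P.freyCurveInt.map (Int.castRingHom ℚ)).IsModular) : P.freyCurve.IsModular :=
  freyCurveInt_map P ▸ h

theorem exists_conductorLevel_of_exact (P : FreyPackage)
    (h : Mlc1IsModularModelOfExactConductorLevel P.freyCurveInt) :
    ∃ N : ℕ, P.IsConductorLevel N ∧ P.ModularRepOfLevel N := by
  obtain ⟨N, hN, hsq, hsupp, f, hf, hap⟩ := h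
  obtain ⟨𝔪, hmax, hpm⟩ := FLTPrelim.exists_maximalIdeal_natCast_prime_mem P.pp
  refine ⟨N, ⟨hN, hsq, fun q hq hqN =>
    dvd_abc_of_dvd_freyCurveInt_Δ P hq ((hsupp q hq).1 hqN)⟩,
    f, P.freyCurveInt, 𝔪, hf, freyCurveInt_isIntegralModelOf P, hmax, hpm,
    fun ℓ hℓ hgood hℓN _ => ⟨((P.freyCurveInt.apOfModel ℓ : ℤ) : integralClosure ℤ ℂ), ?_, ?_⟩⟩
  · rw [hap ℓ hℓ hgood hℓN]
    simp
  · simp

end Fermat.Agent.Wiring

end
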