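import Fermat.Agent.Wiring.Irreducible
import Fermat.Agent.Mazur.TwelveMain
import Fermat.Agent.Mazur.StepThree
import Fermat.Agent.S10
import Fermat.Agent.S11
import Fermat.Agent.S13
import Fermat.Agent.S14

/-!
# Wiring: Mazur's step three and the irreducibility of the Frey representation
-/

set_option autoImplicit false
set_option maxHeartbeats 400000

noncomputable section

open WeierstrassCurve.Affine.Point

namespace Fermat.Agent.Wiring

/-- Step three holds for every prime at least seventeen. -/
theorem stepThree (p : ℕ) (hp : p.Prime) (h17 : 17 ≤ p) : Mazur.StepThree p :=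
  fun W hΔ Q hQ hord h2Δ h2c h2 h3Δ h3c h3 _ hℓ hℓp hℓΔ hℓc A hA =>
    Mazur.not_inZeroComponentAt_of_two_three hp
      (by simp only [Finset.mem_insert, Finset.mem_singleton]; omega)
      W hΔ Q hQ hord h2Δ h2c h2 h3Δ h3c h3 hℓ hℓp hℓΔ hℓc A hA

/-- No Galois stable cofixed line for `p ≥ 17`. -/
theorem frey_no_cofixed_large (P : FreyPackage) (hp : 17 ≤ P.p) :
    ¬ HasGaloisStableCofixedLine (K := AlgebraicClosure ℚ) ℚ P.freyCurve P.p := by
  haveI : Fact P.p.Prime := ⟨P.pp⟩
  exact Mazur.no_cofixedLine_of_stepThree P hp (stepThree P.p P.pp hp) (S14.result (by omega))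

/-- The Frey representation is irreducible. -/
theorem frey_irreducible_unconditional (P : FreyPackage) :
    GaloisRepIsIrreducible (K := AlgebraicClosure ℚ) ℚ P.freyCurve P.p :=
  irreducible_of_no_cofixedLine P (S13.result P) (S10.result P) (S11.result P)
    (frey_no_cofixed_large P)

end Fermat.Agent.Wiring

end
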