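import Fermat.Agent.Wiring.FinalInputs
import Fermat.Agent.Wiring.StepThreeInput
import Fermat.Agent.Residual.MainGood

/-!
# Wiring: the residual input and step three discharged
-/

set_option autoImplicit false

namespace Fermat.Agent.Wiring

/-- Residual modularity at three in the shape the assembly consumes. -/
theorem residualThree : ResidualThree := fun W hΔ hW h2 h3 =>
  Residual.residual_modular_three_squarefree W hΔ hW h2 h3

/-- The root statement, given lifting and the two level lowering inputs. -/
theorem flt_of_lifting_and_lowering (hlift : LiftingTwo) (h44 : LowerAtP) (h43 : LowerAwayP)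
    (n : ℕ) (hn : 3 ≤ n) (a b c : ℕ) (ha : 0 < a) (hb : 0 < b) (hc : 0 < c) :
    a ^ n + b ^ n ≠ c ^ n :=
  flt_of_inputs stepThree residualThree hlift h44 h43 n hn a b c ha hb hc

end Fermat.Agent.Wiring
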