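import Fermat.Prelude.Def_FLTPrelim_FreyPackage
import Fermat.Prelude.Def_FLTPrelim_GaloisRep
import Fermat.Prelude.Def_FLTPrelim_CofixedLine

/-!
# Wiring: irreducibility of the Frey representation from the cofixed-line statements
-/

set_option autoImplicit false

open WeierstrassCurve.Affine.Point

namespace Fermat.Agent.Wiring

/-- The mod-`p` representation is irreducible if reducibility gives a cofixed line
and there is no cofixed line in each of the three ranges of `p`. -/
theorem irreducible_of_no_cofixedLine (P : FreyPackage)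
    (h13 : ¬ GaloisRepIsIrreducible (K := AlgebraicClosure ℚ) ℚ P.freyCurve P.p →
      HasGaloisStableCofixedLine (K := AlgebraicClosure ℚ) ℚ P.freyCurve P.p)
    (h10 : P.p = 5 ∨ P.p = 7 ∨ P.p = 13 →
      ¬ HasGaloisStableCofixedLine (K := AlgebraicClosure ℚ) ℚ P.freyCurve P.p)
    (h11 : P.p = 11 →
      ¬ HasGaloisStableCofixedLine (K := AlgebraicClosure ℚ) ℚ P.freyCurve P.p)
    (h12 : 17 ≤ P.p →
      ¬ HasGaloisStableCofixedLine (K := AlgebraicClosure ℚ) ℚ P.freyCurve P.p) :
    GaloisRepIsIrreducible (K := AlgebraicClosure ℚ) ℚ P.freyCurve P.p := by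
  by_contra h
  have hl := h13 h
  have hcases : (P.p = 5 ∨ P.p = 7 ∨ P.p = 13) ∨ P.p = 11 ∨ 17 ≤ P.p := by
    have h5 := P.hp5
    have hpp := P.pp
    by_cases h17 : 17 ≤ P.p
    · exact Or.inr (Or.inr h17)
    · have hlt : P.p < 17 := by omega
      interval_cases hp : P.p <;>
        first
          | omega
          | exact absurd hpp (by decide)
  rcases hcases with hp | hp | hp
  · exact h10 hp hl
  · exact h11 hp hl
  · exact h12 hp hl

end Fermat.Agent.Wiring
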