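import Fermat.Prelude.Def_FLTPrelim_FreyPackage
import Fermat.Prelude.Def_FLTPrelim_GaloisRep
import Fermat.Prelude.Def_FLTPrelim_Modularity
import Fermat.Prelude.Def_FLTPrelim_ModularRep
import Fermat.Prelude.Def_FLTPrelim_Ramification
import Fermat.Prelude.Def_FreyPackage_IsConductorLevel

/-!
# Wiring: descent from a conductor level to level two
-/

set_option autoImplicit false

open WeierstrassCurve.Affine.Point

namespace Fermat.Agent.Wiring

/-- Repeated level lowering takes a conductor level of the Frey package to level dividing two. -/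
theorem exists_modularRep_dvd_two (P : FreyPackage)
    (hp_step : ∀ {N : ℕ}, P.IsConductorLevel N → P.p ∣ N → P.ModularRepOfLevel N →
      ∃ M : ℕ, M ∣ N ∧ ¬ P.p ∣ M ∧ P.ModularRepOfLevel M)
    (hq_step : ∀ {N q : ℕ}, P.IsConductorLevel N → q.Prime → q ≠ 2 → q ≠ P.p → q ∣ N →
      P.ModularRepOfLevel N →
      ∃ M : ℕ, M ∣ N ∧ ¬ q ∣ M ∧ P.ModularRepOfLevel M)
    (h : ∃ N : ℕ, P.IsConductorLevel N ∧ P.ModularRepOfLevel N) :
    ∃ N : ℕ, N ∣ 2 ∧ P.ModularRepOfLevel N := by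
  obtain ⟨N, hcond, hmod⟩ := h
  induction N using Nat.strong_induction_on with
  | _ N ih =>
    have step : ∀ q : ℕ, q ∣ N → (∃ M : ℕ, M ∣ N ∧ ¬ q ∣ M ∧ P.ModularRepOfLevel M) →
        ∃ N : ℕ, N ∣ 2 ∧ P.ModularRepOfLevel N := by
      rintro q hqN ⟨M, hMN, hqM, hM⟩
      have hMpos : 0 < M := Nat.pos_of_dvd_of_pos hMN hcond.pos
      have hlt : M < N := lt_of_le_of_ne (Nat.le_of_dvd hcond.pos hMN)
        (fun h => hqM (h ▸ hqN))
      exact ih M hlt (hcond.of_dvd hMN hMpos) hM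
    by_cases hp : P.p ∣ N
    · exact step P.p hp (hp_step hcond hp hmod)
    by_cases hq : ∃ q : ℕ, q.Prime ∧ q ≠ 2 ∧ q ∣ N
    · obtain ⟨q, hq, hq2, hqN⟩ := hq
      exact step q hqN (hq_step hcond hq hq2 (fun h => hp (h ▸ hqN)) hqN hmod)
    refine ⟨N, ?_, hmod⟩
    by_contra hN2
    have hN1 : N ≠ 1 := fun h => hN2 (h ▸ one_dvd _)
    -- all prime factors are two and `N` is squarefree
    have h2 : ∀ q : ℕ, q.Prime → q ∣ N → q = 2 := by
      intro q hq' hqN
      by_contra hne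
      exact hq ⟨q, hq', hne, hqN⟩
    obtain ⟨q, hq', hqN⟩ := Nat.exists_prime_and_dvd hN1
    obtain ⟨k, rfl⟩ := h2 q hq' hqN ▸ hqN
    have hk : k ≠ 1 := fun h => hN2 (by rw [h, mul_one])
    obtain ⟨r, hr, hrk⟩ := Nat.exists_prime_and_dvd hk
    have hr2 := h2 r hr (hrk.mul_left 2)
    subst hr2
    exact hcond.sq_not_dvd Nat.prime_two (by rw [pow_two]; exact mul_dvd_mul_left 2 hrk)

/-- A modular mod-`p` representation of level `N` gives a nonzero cusp form of that level. -/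
theorem exists_ne_zero_of_modularRep (P : FreyPackage) {N : ℕ} (h : P.ModularRepOfLevel N) :
    ∃ f : CuspForm (CongruenceSubgroup.Gamma0 N) 2, f ≠ 0 := by
  obtain ⟨f, _, _, hf, -⟩ := h
  exact ⟨f, hf.ne_zero⟩

/-- A nonzero form of level two, given modularity at a level dividing two and the
vanishing at level one. -/
theorem exists_form_level_two (P : FreyPackage) {N : ℕ} (hN : N ∣ 2)
    (h : P.ModularRepOfLevel N)
    (h1 : ∀ f : CuspForm (CongruenceSubgroup.Gamma0 1) 2, f = 0) :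
    ∃ f : CuspForm (CongruenceSubgroup.Gamma0 2) 2, f ≠ 0 := by
  obtain ⟨f, hf⟩ := exists_ne_zero_of_modularRep P h
  rcases (Nat.dvd_prime Nat.prime_two).1 hN with rfl | rfl
  · exact absurd (h1 f) hf
  · exact ⟨f, hf⟩

end Fermat.Agent.Wiring
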