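import Fermat.Agent.Wiring.Modularity
import Fermat.Agent.Switch3.Congruent

/-!
# Wiring: modularity of semistable models with multiplicative reduction at two

Residual modularity at three is only needed for semistable models with even discriminant; the
switch preserves this property, and the Frey model has it.
-/

set_option autoImplicit false

noncomputable section

namespace Fermat.Agent.Wiring

/-- The discriminant of the Frey model is even. -/
theorem two_dvd_freyCurveInt_Δ (P : FreyPackage) : (2 : ℤ) ∣ P.freyCurveInt.Δ := by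
  have h2 : (2 : ℤ) ∣ P.b := (ZMod.intCast_zmod_eq_zero_iff_dvd P.b 2).1 P.hb2
  have h9 : (2 : ℤ) ^ 9 ∣ 256 * P.freyCurveInt.Δ := by
    rw [freyCurveInt_Δ]
    exact (pow_dvd_pow 2 (by have := P.hp5; omega)).trans
      (pow_dvd_pow_of_dvd (dvd_mul_of_dvd_left (dvd_mul_of_dvd_right h2 _) _) _)
  omega

/-- Modularity of exact conductor level for semistable models with even discriminant, from
residual modularity at three for such models, the disjunction mod 3 or mod 5, and the lifting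
theorem at three and five; the switch is `Switch3.exists_switched_curve_two_five`. -/
theorem exactConductorLevel_of_inputs_two
    (h3res : ∀ W : WeierstrassCurve ℤ, W.Δ ≠ 0 → W.IsSemistableModel → (2 : ℤ) ∣ W.Δ →
      W.ModRepIsIrreducible 3 →
      ∃ M₀ : ℕ, 0 < M₀ ∧ W.IsResiduallyModularOfLevel 3 M₀ ∧ ¬ 3 ^ 2 ∣ M₀ ∧
        ∀ q : ℕ, q.Prime → q ≠ 3 → ¬ q ^ 3 ∣ M₀)
    (hor : ∀ W : WeierstrassCurve ℤ, W.Δ ≠ 0 → W.IsSemistableModel → (2 : ℤ) ∣ W.Δ →
      W.ModRepIsIrreducible 3 ∨ W.ModRepIsIrreducible 5)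
    (hlift : ∀ (p : ℕ), p = 3 ∨ p = 5 → ∀ W : WeierstrassCurve ℤ, W.Δ ≠ 0 →
      W.IsSemistableModel → (2 : ℤ) ∣ W.Δ → W.ModRepIsIrreducible p →
      ∀ (M₀ : ℕ) [NeZero M₀], W.IsResiduallyModularOfLevel p M₀ → ¬ p ^ 2 ∣ M₀ →
      (∀ q : ℕ, q.Prime → q ≠ p → ¬ q ^ 3 ∣ M₀) →
      Mlc1IsModularModelOfExactConductorLevel W)
    (W : WeierstrassCurve ℤ) (hΔ : W.Δ ≠ 0) (hW : W.IsSemistableModel) (h2 : (2 : ℤ) ∣ W.Δ) :
    Mlc1IsModularModelOfExactConductorLevel W := by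
  have at3 : ∀ W : WeierstrassCurve ℤ, W.Δ ≠ 0 → W.IsSemistableModel → (2 : ℤ) ∣ W.Δ →
      W.ModRepIsIrreducible 3 → Mlc1IsModularModelOfExactConductorLevel W := by
    intro W hΔ hW h2 h3
    obtain ⟨M₀, hpos, hres, h9, hcube⟩ := h3res W hΔ hW h2 h3
    have : NeZero M₀ := ⟨hpos.ne'⟩
    exact hlift 3 (Or.inl rfl) W hΔ hW h2 h3 M₀ hres h9 hcube
  rcases hor W hΔ hW h2 with h3 | h5
  · exact at3 W hΔ hW h2 h3
  obtain ⟨W', hΔ', hW', h3', hcong, h2', -⟩ :=
    Switch3.exists_switched_curve_two_five W hΔ hW h5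
  obtain ⟨N, hN, hsq, hsupp, hmod⟩ := at3 W' hΔ' hW' (h2' h2) h3'
  have : NeZero N := ⟨hN.ne'⟩
  have hres : W.IsResiduallyModularOfLevel 5 N :=
    isResiduallyModularOfLevel_of_congr (by norm_num) hmod
      (fun ℓ hℓ hℓN hd => hℓN ((hsupp ℓ hℓ).2 hd)) hcong
  have hno : ∀ q : ℕ, q.Prime → ¬ q ^ 2 ∣ N := fun q hq h =>
    Nat.squarefree_iff_prime_squarefree.mp hsq q hq (by rwa [← pow_two])
  exact hlift 5 (Or.inr rfl) W hΔ hW h2 h5 N hres (hno 5 (by norm_num))
    (fun q hq _ h => hno q hq ((pow_dvd_pow q (by norm_num)).trans h))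

end Fermat.Agent.Wiring

end
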