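import Fermat.Agent.Wiring.Root
import Fermat.Agent.Wiring.Irreducible
import Fermat.Agent.Wiring.LevelTwo
import Fermat.Agent.Wiring.ModularityTwo
import Fermat.Agent.Mazur.TwelveMain
import Fermat.Agent.S02
import Fermat.Agent.S05
import Fermat.Agent.S07
import Fermat.Agent.S08
import Fermat.Agent.S10
import Fermat.Agent.S11
import Fermat.Agent.S13
import Fermat.Agent.S14
import Fermat.Agent.S51

/-!
# Wiring: the root statement from the main inputs

The inputs are stated as propositions; instantiating them gives the root statement.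
-/

set_option autoImplicit false

open WeierstrassCurve.Affine.Point

namespace Fermat.Agent.Wiring

/-- Residual modularity at three for semistable models with even discriminant: a squarefree
level, prime to three when the model has good reduction there. -/
def ResidualThree : Prop :=
  ∀ W : WeierstrassCurve ℤ, W.Δ ≠ 0 → W.IsSemistableModel → (2 : ℤ) ∣ W.Δ →
    W.ModRepIsIrreducible 3 →
    ∃ M₀ : ℕ, 0 < M₀ ∧ W.IsResiduallyModularOfLevel 3 M₀ ∧ Squarefree M₀ ∧
      (¬ (3 : ℤ) ∣ W.Δ → ¬ 3 ∣ M₀)

/-- The lifting theorem at three and five, for semistable models with even discriminant and a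
squarefree residual level, prime to `p` when the model has good reduction at `p`. -/
def LiftingTwo : Prop :=
  ∀ (p : ℕ), p = 3 ∨ p = 5 → ∀ W : WeierstrassCurve ℤ, W.Δ ≠ 0 →
    W.IsSemistableModel → (2 : ℤ) ∣ W.Δ → W.ModRepIsIrreducible p →
    ∀ (M₀ : ℕ) [NeZero M₀], W.IsResiduallyModularOfLevel p M₀ → Squarefree M₀ →
    (¬ (p : ℤ) ∣ W.Δ → ¬ p ∣ M₀) →
    Mlc1IsModularModelOfExactConductorLevel W

/-- Removal of the package's prime from the level (the shape of S44). -/
def LowerAtP : Prop :=
  ∀ (P : FreyPackage) {N : ℕ}, P.IsConductorLevel N → P.p ∣ N →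
    GaloisRepIsIrreducible (K := AlgebraicClosure ℚ) ℚ P.freyCurve P.p →
    P.ModularRepOfLevel N → ∃ M : ℕ, M ∣ N ∧ ¬ P.p ∣ M ∧ P.ModularRepOfLevel M

/-- Removal of an odd prime other than `p` from the level (the shape of S43). -/
def LowerAwayP : Prop :=
  ∀ (P : FreyPackage) {N q : ℕ}, P.IsConductorLevel N → q.Prime → q ≠ 2 → q ≠ P.p → q ∣ N →
    GaloisRepIsIrreducible (K := AlgebraicClosure ℚ) ℚ P.freyCurve P.p →
    P.ModularRepOfLevel N → P.GaloisRepUnramifiedAt q →
    ∃ M : ℕ, M ∣ N ∧ ¬ q ∣ M ∧ P.ModularRepOfLevel M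

/-- The Frey representation is irreducible, given step three. -/
theorem frey_irreducible (h15 : ∀ p : ℕ, p.Prime → 17 ≤ p → Mazur.StepThree p) (P : FreyPackage) :
    GaloisRepIsIrreducible (K := AlgebraicClosure ℚ) ℚ P.freyCurve P.p :=
  irreducible_of_no_cofixedLine P (S13.result P) (S10.result P) (S11.result P) fun h17 => by
    haveI : Fact P.p.Prime := ⟨P.pp⟩
    exact Mazur.no_cofixedLine_of_stepThree P h17 (h15 P.p P.pp h17) (S14.result (by omega))

/-- Modularity of exact conductor level for semistable models with even discriminant. -/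
theorem exact_of_residual_and_lifting (h3res : ResidualThree) (hlift : LiftingTwo)
    (W : WeierstrassCurve ℤ) (hΔ : W.Δ ≠ 0) (hW : W.IsSemistableModel) (h2 : (2 : ℤ) ∣ W.Δ) :
    Mlc1IsModularModelOfExactConductorLevel W := by
  have at3 : ∀ W : WeierstrassCurve ℤ, W.Δ ≠ 0 → W.IsSemistableModel → (2 : ℤ) ∣ W.Δ →
      W.ModRepIsIrreducible 3 → Mlc1IsModularModelOfExactConductorLevel W := by
    intro W hΔ hW h2 h3
    obtain ⟨M₀, hpos, hres, hsq, hthree⟩ := h3res W hΔ hW h2 h3
    have : NeZero M₀ := ⟨hpos.ne'⟩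
    exact hlift 3 (Or.inl rfl) W hΔ hW h2 h3 M₀ hres hsq (by exact_mod_cast hthree)
  rcases S51.result W hΔ hW with h3 | h5
  · exact at3 W hΔ hW h2 h3
  obtain ⟨W', hΔ', hW', h3', hcong, h2', hgood5⟩ :=
    Switch3.exists_switched_curve_two_five W hΔ hW h5
  obtain ⟨N, hN, hsq, hsupp, hmod⟩ := at3 W' hΔ' hW' (h2' h2) h3'
  have : NeZero N := ⟨hN.ne'⟩
  have hres : W.IsResiduallyModularOfLevel 5 N :=
    isResiduallyModularOfLevel_of_congr (by norm_num) hmod
      (fun ℓ hℓ hℓN hd => hℓN ((hsupp ℓ hℓ).2 hd)) hcong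
  exact hlift 5 (Or.inr rfl) W hΔ hW h2 h5 N hres hsq
    fun hgood h => hgood5.2 hgood ((hsupp 5 (by norm_num)).1 h)

/-- The Frey model is modular of exact conductor level. -/
theorem frey_exact (h3res : ResidualThree) (hlift : LiftingTwo) (P : FreyPackage) :
    Mlc1IsModularModelOfExactConductorLevel P.freyCurveInt :=
  exact_of_residual_and_lifting h3res hlift
    P.freyCurveInt (freyCurveInt_Δ_ne_zero P) (freyCurveInt_isSemistableModel P)
    (two_dvd_freyCurveInt_Δ P)

/-- The Frey curve is modular. -/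
theorem frey_isModular (h3res : ResidualThree) (hlift : LiftingTwo) (P : FreyPackage) :
    P.freyCurve.IsModular :=
  freyCurve_isModular_of_isModular_map P (isModular_map_of_exact _ (frey_exact h3res hlift P))

/-- The Frey representation is modular of a conductor level. -/
theorem frey_conductorLevel (h3res : ResidualThree) (hlift : LiftingTwo) (P : FreyPackage) :
    ∃ N : ℕ, P.IsConductorLevel N ∧ P.ModularRepOfLevel N :=
  exists_conductorLevel_of_exact P (frey_exact h3res hlift P)

/-- No Frey package exists, given the outstanding inputs. -/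
theorem false_of_inputs (h15 : ∀ p : ℕ, p.Prime → 17 ≤ p → Mazur.StepThree p)
    (h3res : ResidualThree) (hlift : LiftingTwo) (h44 : LowerAtP) (h43 : LowerAwayP)
    (P : FreyPackage) : False := by
  have hirr := frey_irreducible h15 P
  obtain ⟨N, hN, hmod⟩ := exists_modularRep_dvd_two P
    (fun hc hp hm => h44 P hc hp hirr hm)
    (fun hc hq hq2 hqp hqN hm => h43 P hc hq hq2 hqp hqN hirr hm (S05.result P hq hq2 hqp))
    (frey_conductorLevel h3res hlift P)
  obtain ⟨f, hf⟩ := exists_form_level_two P hN hmod S08.result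
  exact hf (S07.result f)

/-- The root statement, given the outstanding inputs. -/
theorem flt_of_inputs (h15 : ∀ p : ℕ, p.Prime → 17 ≤ p → Mazur.StepThree p)
    (h3res : ResidualThree) (hlift : LiftingTwo) (h44 : LowerAtP) (h43 : LowerAwayP)
    (n : ℕ) (hn : 3 ≤ n) (a b c : ℕ) (ha : 0 < a) (hb : 0 < b) (hc : 0 < c) :
    a ^ n + b ^ n ≠ c ^ n :=
  flt_of_no_freyPackage S02.result (false_of_inputs h15 h3res hlift h44 h43) n hn a b c ha hb hc

end Fermat.Agent.Wiring
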