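import Fermat.Agent.CondLevel.Statements
import Fermat.Agent.Lifting.FGlue
import Fermat.Agent.NewformRep.Main

/-!
# Wiring: the representation attached to a newform, fed to the back end of modularity lifting
-/

set_option autoImplicit false

noncomputable section

namespace Fermat.Agent.Wiring

/-- The input `S35` of conductor-level matching, discharged. -/
theorem s35Statement : CondLevel.S35Statement :=
  fun {M} _ {g} hg lam _ S O' _ _ _ _ _ _ hlamO' chig hchig iota hlamS hMS =>
    NewformRep.exists_galoisRepAdic_newform hg lam S O' hlamO' chig hchig iota hlamS hMS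

/-- An eigenform of squarefree level with almost all eigenvalues those of `W` gives modularity of
exact conductor level. -/
theorem exactConductorLevel_of_eigenform {W : WeierstrassCurve ℤ} (hΔ : W.Δ ≠ 0)
    {L : ℕ} [NeZero L] (hL : Squarefree L) {f : CuspForm (CongruenceSubgroup.Gamma0 L) 2}
    (hf : f.IsNormalizedEigenform) (T : Finset ℕ)
    (hfW : ∀ ℓ : ℕ, ℓ.Prime → ¬ ℓ ∣ L → ℓ ∉ T →
      ModularFormClass.qCoeff f ℓ = (W.apOfModel ℓ : ℂ)) :
    Mlc1IsModularModelOfExactConductorLevel W :=
  Lifting.exact_of_eigenform s35Statement hΔ hL hf T hfW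

end Fermat.Agent.Wiring

end
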