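import Fermat.Agent.Lifting.FLiftingTwo
import Fermat.Agent.Wiring.FinalInputs
import Fermat.Agent.Wiring.S35Input

/-!
# Wiring: the lifting input of the final assembly
-/

set_option autoImplicit false

namespace Fermat.Agent.Wiring

/-- The lifting theorem at three and five, given level lowering away from `p` at squarefree
levels. -/
theorem liftingTwo_of_lowering (h38 : Lifting.LoweringAwayStatement) : LiftingTwo :=
  fun p hp W hΔ hss _ hirr M₀ _ hres hM₀ hpM₀ =>
    Lifting.liftingTwo_of_lowering s35Statement h38 p hp W hΔ hss hirr M₀ hres hM₀ hpM₀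

end Fermat.Agent.Wiring
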