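import Fermat.Agent.Wiring.LowerAtP
import Fermat.Agent.Wiring.FinalInputs
import Fermat.Agent.Ribet.General.LowerFrey

/-!
# Wiring: the two level lowering inputs of `flt_of_inputs`
-/

set_option autoImplicit false

namespace Fermat.Agent.Wiring

/-- Mazur's principle at `p` gives the input `LowerAtP`. -/
theorem lowerAtP_input : LowerAtP :=
  fun P _ hN hpN hirr hmod => lowerAtP_core P hN hpN hirr hmod

/-- Mazur's principle away from `p` and Ihara avoidance give the input `LowerAwayP`. -/
theorem lowerAwayP_input : LowerAwayP :=
  fun P _ _ hN hq hq2 hqp _ hirr hmod _ => Ribet.General.lowerAwayP P hN hq hq2 hqp hirr hmod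

end Fermat.Agent.Wiring
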