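import Fermat.Agent.Wiring.RootsCond
import Fermat.Agent.Wiring.FinalResidual
import Fermat.Agent.Wiring.LiftingTwo
import Fermat.Agent.Wiring.LowerInputs
import Fermat.Agent.Ribet.General.LowerFrey

/-!
# Wiring: the four inputs of the final assembly discharged
-/

set_option autoImplicit false

open WeierstrassCurve.Affine.Point

namespace Fermat.Agent.Wiring.Roots

/-- Level lowering away from `p` at squarefree levels. -/
theorem loweringAway : Lifting.LoweringAwayStatement :=
  fun _ _ hp2 _ hΔ hW hc hk hirr _ _ hq hqp hqM _ hM hpM hu hr =>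
    Ribet.General.isResiduallyModularOfLevel_div hp2 hΔ hW hc hk hirr hq hqp hqM hM hpM hu hr

/-- The lifting input. -/
theorem liftingTwo : LiftingTwo := liftingTwo_of_lowering loweringAway

/-- The input `LowerAwayP`. -/
theorem lowerAway : LowerAwayP :=
  fun P _ _ hN hq hq2 hqp _ hirr hmod _ => Ribet.General.lowerAwayP P hN hq hq2 hqp hirr hmod

/-- Shape of S04. -/
theorem freyIsModular (P : FreyPackage) : P.freyCurve.IsModular :=
  s04_of_inputs residualThree liftingTwo P

/-- Shape of S06. -/
theorem freyConductorLevel (P : FreyPackage) :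
    ∃ N : ℕ, P.IsConductorLevel N ∧ P.ModularRepOfLevel N :=
  s06_of_inputs residualThree liftingTwo P

/-- Shape of S45. -/
theorem formTwo (P : FreyPackage) (hmod : P.freyCurve.IsModular)
    (hirr : GaloisRepIsIrreducible (K := AlgebraicClosure ℚ) ℚ P.freyCurve P.p) :
    ∃ f : CuspForm (CongruenceSubgroup.Gamma0 2) 2, f ≠ 0 :=
  s45_of_inputs residualThree liftingTwo lowerAtP_input lowerAway P hmod hirr

/-- Shape of S03. -/
theorem noFreyPackage (P : FreyPackage) : False :=
  s03_of_inputs residualThree liftingTwo lowerAtP_input lowerAway P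

/-- Shape of S01. -/
theorem fermatRoot (n : ℕ) (hn : 3 ≤ n) (a b c : ℕ) (ha : 0 < a) (hb : 0 < b) (hc : 0 < c) :
    a ^ n + b ^ n ≠ c ^ n :=
  s01_of_inputs residualThree liftingTwo lowerAtP_input lowerAway n hn a b c ha hb hc

end Fermat.Agent.Wiring.Roots
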