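import Fermat.Agent.Wiring.FreyBridge
import Fermat.Agent.MazurPrinciple.CriterionInst
import Fermat.Agent.MazurPrinciple.Main
import Fermat.Agent.Mult.Frey
import Fermat.Agent.Galois.QbarInstances

/-!
# Wiring: removal of `p` from the level of the Frey representation

At the prime `p` of a Frey package dividing the level, the integral model has multiplicative peu
ramifiée reduction, so it carries the local data of Mazur's principle at `p`.
-/

set_option autoImplicit false
set_option linter.style.haveILetI false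

noncomputable section

open WeierstrassCurve.Affine.Point

namespace Fermat.Agent.Wiring

variable (P : FreyPackage)

/-- `p ∣ abc` gives multiplicative reduction of the integral model at `p`. -/
theorem p_dvd_freyCurveInt_Δ (h : (P.p : ℤ) ∣ P.a * P.b * P.c) :
    (P.p : ℤ) ∣ P.freyCurveInt.Δ := by
  have hp' : Prime (P.p : ℤ) := Nat.prime_iff_prime_int.1 P.pp
  have h256 : (P.p : ℤ) ∣ 256 * P.freyCurveInt.Δ := by
    rw [freyCurveInt_Δ P]
    exact dvd_pow h (by have := P.hp5; omega)
  rcases hp'.dvd_or_dvd h256 with h2 | h2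
  · have h3 : (P.p : ℤ) ∣ 2 := hp'.dvd_of_dvd_pow (show (P.p : ℤ) ∣ 2 ^ 8 by norm_num; exact h2)
    have h4 := (Nat.prime_dvd_prime_iff_eq P.pp Nat.prime_two).1 (by exact_mod_cast h3)
    have := P.hp5
    omega
  · exact h2

/-- Mazur's principle at `p` removes `p` from the level (the shape of S44). -/
theorem lowerAtP_core {N : ℕ} (hN : P.IsConductorLevel N)
    (hpN : P.p ∣ N) (hirr : GaloisRepIsIrreducible (K := AlgebraicClosure ℚ) ℚ P.freyCurve P.p)
    (hmod : P.ModularRepOfLevel N) :
    ∃ M : ℕ, M ∣ N ∧ ¬ P.p ∣ M ∧ P.ModularRepOfLevel M := by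
  haveI : Fact P.p.Prime := ⟨P.pp⟩
  have hp5 := P.hp5
  obtain ⟨M, rfl⟩ := hpN
  have hpM : ¬ P.p ∣ M := fun h =>
    P.pp.not_isUnit (hN.squarefree P.p (mul_dvd_mul_left P.p h))
  haveI : NeZero M := ⟨fun h => hN.pos.ne' (by simp [h])⟩
  have hres := freyCurveInt_isResiduallyModularOfLevel P hirr hN.pos hmod
  rw [mul_comm] at hres
  obtain ⟨A, hA⟩ := Galois.exists_liesOverPrime P.pp
  have hΔ := freyCurveInt_Δ_ne_zero P
  have hm := Mult.IsMultPlace.of_semistable hΔ (freyCurveInt_isSemistableModel P) P.pp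
    (p_dvd_freyCurveInt_Δ P (hN.p_dvd_abc (dvd_mul_right _ _))) hA
  obtain ⟨L⟩ := MazurPrinciple.nonempty_localData_mult (p := P.p) (by omega) hm
    (Mult.dvd_padicValInt_freyCurveInt_Δ P P.pp (by omega))
  exact ⟨M, dvd_mul_left M P.p, hpM, modularRepOfLevel_of_freyCurveInt P
    (MazurPrinciple.isResiduallyModularOfLevel_of_localData hΔ hp5 hpM
      (modRepIsIrreducible_freyCurveInt P hirr) hres hA L)⟩

end Fermat.Agent.Wiring

end
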