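import Mathlib.NumberTheory.FLT.Four
import Mathlib.NumberTheory.FLT.Three
import Fermat.Prelude.Def_FLTPrelim_FreyPackage

/-!
# Top wiring: from "no Frey package" to the elementary form of the theorem
-/

set_option autoImplicit false

namespace Fermat.Agent.Wiring

/-- If solutions yield Frey packages and no Frey package exists, the elementary form holds. -/
theorem flt_of_no_freyPackage
    (hfrey : ∀ a b c : ℤ, a ≠ 0 → b ≠ 0 → c ≠ 0 → ∀ p : ℕ, p.Prime → 5 ≤ p →
      a ^ p + b ^ p = c ^ p → Nonempty FreyPackage)
    (hno : FreyPackage → False)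
    (n : ℕ) (hn : 3 ≤ n) (a b c : ℕ) (ha : 0 < a) (hb : 0 < b) (hc : 0 < c) :
    a ^ n + b ^ n ≠ c ^ n := by
  have hflt : FermatLastTheorem := by
    refine FermatLastTheorem.of_odd_primes fun p pp podd => ?_
    rcases lt_or_ge p 5 with h | h
    · obtain rfl : p = 3 := by
        rcases podd with ⟨k, rfl⟩
        have := pp.two_le
        omega
      exact fermatLastTheoremThree
    · rw [fermatLastTheoremFor_iff_int]
      intro x y z hx hy hz H
      exact (hfrey x y z hx hy hz p pp h H).elim hno
  exact hflt n hn a b c ha.ne' hb.ne' hc.ne'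

end Fermat.Agent.Wiring
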