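import Fermat.Agent.Wiring.FinalInputs
import Fermat.Agent.Wiring.StepThreeInput

/-!
# Wiring: the frozen shapes of S03, S04, S06, S43, S44 and S45 from the main inputs
-/

set_option autoImplicit false

open WeierstrassCurve.Affine.Point

namespace Fermat.Agent.Wiring

/-- Shape of S04. -/
theorem s04_of_inputs (h3res : ResidualThree) (hlift : LiftingTwo) (P : FreyPackage) :
    P.freyCurve.IsModular :=
  frey_isModular h3res hlift P

/-- Shape of S06. -/
theorem s06_of_inputs (h3res : ResidualThree) (hlift : LiftingTwo) (P : FreyPackage) :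
    ∃ N : ℕ, P.IsConductorLevel N ∧ P.ModularRepOfLevel N :=
  frey_conductorLevel h3res hlift P

/-- Shape of S43. -/
theorem s43_of_inputs (h43 : LowerAwayP) (P : FreyPackage) {N q : ℕ}
    (hcond : P.IsConductorLevel N) (hq : q.Prime) (hq2 : q ≠ 2) (hqp : q ≠ P.p) (hqN : q ∣ N)
    (hirr : GaloisRepIsIrreducible (K := AlgebraicClosure ℚ) ℚ P.freyCurve P.p)
    (hmod : P.ModularRepOfLevel N) (hunr : P.GaloisRepUnramifiedAt q) :
    ∃ M : ℕ, M ∣ N ∧ ¬ q ∣ M ∧ P.ModularRepOfLevel M :=
  h43 P hcond hq hq2 hqp hqN hirr hmod hunr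

/-- Shape of S44. -/
theorem s44_of_inputs (h44 : LowerAtP) (P : FreyPackage) {N : ℕ}
    (hcond : P.IsConductorLevel N) (hpN : P.p ∣ N)
    (hirr : GaloisRepIsIrreducible (K := AlgebraicClosure ℚ) ℚ P.freyCurve P.p)
    (hmod : P.ModularRepOfLevel N) :
    ∃ M : ℕ, M ∣ N ∧ ¬ P.p ∣ M ∧ P.ModularRepOfLevel M :=
  h44 P hcond hpN hirr hmod

/-- A conductor level and lowering give a nonzero form of level two. -/
theorem exists_form_two_of_conductorLevel (h44 : LowerAtP) (h43 : LowerAwayP) (P : FreyPackage)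
    (hirr : GaloisRepIsIrreducible (K := AlgebraicClosure ℚ) ℚ P.freyCurve P.p)
    (h : ∃ N : ℕ, P.IsConductorLevel N ∧ P.ModularRepOfLevel N) :
    ∃ f : CuspForm (CongruenceSubgroup.Gamma0 2) 2, f ≠ 0 := by
  obtain ⟨N, hN, hmod⟩ := exists_modularRep_dvd_two P
    (fun hc hp hm => h44 P hc hp hirr hm)
    (fun hc hq hq2 hqp hqN hm => h43 P hc hq hq2 hqp hqN hirr hm (S05.result P hq hq2 hqp)) h
  exact exists_form_level_two P hN hmod S08.result

/-- Shape of S45; the exact conductor level comes from the two lifting inputs, so the modularity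
hypothesis is only carried along. -/
theorem s45_of_inputs (h3res : ResidualThree) (hlift : LiftingTwo) (h44 : LowerAtP)
    (h43 : LowerAwayP) (P : FreyPackage) (_hmod : P.freyCurve.IsModular)
    (hirr : GaloisRepIsIrreducible (K := AlgebraicClosure ℚ) ℚ P.freyCurve P.p) :
    ∃ f : CuspForm (CongruenceSubgroup.Gamma0 2) 2, f ≠ 0 :=
  exists_form_two_of_conductorLevel h44 h43 P hirr (frey_conductorLevel h3res hlift P)

/-- Shape of S03. -/
theorem s03_of_inputs (h3res : ResidualThree) (hlift : LiftingTwo) (h44 : LowerAtP)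
    (h43 : LowerAwayP) (P : FreyPackage) : False :=
  false_of_inputs stepThree h3res hlift h44 h43 P

/-- Shape of S01. -/
theorem s01_of_inputs (h3res : ResidualThree) (hlift : LiftingTwo) (h44 : LowerAtP)
    (h43 : LowerAwayP) (n : ℕ) (hn : 3 ≤ n) (a b c : ℕ) (ha : 0 < a) (hb : 0 < b) (hc : 0 < c) :
    a ^ n + b ^ n ≠ c ^ n :=
  flt_of_inputs stepThree h3res hlift h44 h43 n hn a b c ha hb hc

end Fermat.Agent.Wiring
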